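import Mathlib
import Fermat.Agent.S17.GDiv.Defs
import Fermat.Agent.Lib.RR.H804.CharZero

/-!
# S17 / G-DIV: the piece GEN (helper137)

`stmtGEN N L : StmtGEN N L` — generic tuples exist: for a countable subfield `K₀` of an
uncountable algebraically closed field `L ⊇ ℚ` there are `g` places `P₁, …, P_g` of `F_L` at
which `t = j` is finite with values algebraically independent over `K₀`.
Hypotheses: `[Field L] [Algebra ℚ L] [IsAlgClosed L] [Uncountable L] [FF1 L (FL N L)]`.

Also (reusable by the other G-DIV pieces):

* `hasValue_unique` : a function has at most one value at a place;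
* `tval_eq_of_hasValue` : `tval P = c` if `t` has the value `c` at `P`;
* `transcendental_tL`, `finiteDimensional_tL` : `t` is transcendental over `L` and `F_L` is finite
  over `L(t)`;
* `exists_place_hasValue_tL` : every `c ∈ L` is the `t`-value of some place;
* `exists_algebraicIndependent_fin` : arbitrarily long algebraically independent tuples over a
  countable subfield of an uncountable algebraically closed field.
-/

set_option autoImplicit false

noncomputable section

open AlgebraicCurve ModularCurve IntermediateField

namespace Fermat.Agent.S17.H137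

open Fermat.Agent.Lib.RR Fermat.Agent.S17.GDiv Fermat.Agent.S24

section Values

variable {N : ℕ} {L : Type} [Field L] [Algebra ℚ L]

/-- A function has at most one value at a place. -/
theorem hasValue_unique (P : Place L (FL N L)) (f : FL N L) {c c' : L}
    (h : HasValue P f c) (h' : HasValue P f c') : c = c' := by
  by_contra hne
  have hd : (f - algebraMap L (FL N L) c') - (f - algebraMap L (FL N L) c)
      = algebraMap L (FL N L) (c - c') := by
    rw [map_sub]; ring
  have hd0 : algebraMap L (FL N L) (c - c') ≠ 0 := by
    rw [Ne, map_eq_zero, sub_eq_zero]; exact hne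
  have hord : P.ord (algebraMap L (FL N L) (c - c')) = 0 := FF.ord_algebraMap P _
  rcases h with h | h <;> rcases h' with h' | h'
  · rw [h, h', sub_self] at hd
    exact hd0 hd.symm
  · rw [h, sub_zero] at hd
    rw [hd, hord] at h'
    exact lt_irrefl _ h'
  · rw [h', zero_sub] at hd
    have h2 : P.ord (-(f - algebraMap L (FL N L) c)) = P.ord (f - algebraMap L (FL N L) c) :=
      Fermat.Agent.Lib.RR.ord_neg P _
    rw [← h2, hd, hord] at h
    exact lt_irrefl _ h
  · have hsum : (f - algebraMap L (FL N L) c') + -(f - algebraMap L (FL N L) c) ≠ 0 := by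
      rw [← sub_eq_add_neg, hd]; exact hd0
    have h2 : P.ord (-(f - algebraMap L (FL N L) c)) = P.ord (f - algebraMap L (FL N L) c) :=
      Fermat.Agent.Lib.RR.ord_neg P _
    have := FF.ord_add_ge P hsum
    rw [← sub_eq_add_neg, hd, hord, h2] at this
    have := lt_min h' h
    omega

/-- The `t`-value of a place at which `t` has the value `c`. -/
theorem tval_eq_of_hasValue [NeZero N] (P : Place L (FL N L)) {c : L}
    (h : HasValue P (tL N L) c) : tval P = c := by
  have hex : ∃ c : L, HasValue P (tL N L) c := ⟨c, h⟩
  unfold tval
  rw [dif_pos hex]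
  exact hasValue_unique P _ hex.choose_spec h

end Values

section Coordinate

variable (N : ℕ) [NeZero N] (L : Type) [Field L] [Algebra ℚ L]

/-- `t = j` is not a constant. -/
theorem tL_not_mem_range : tL N L ∉ (algebraMap L (FL N L)).range := by
  rintro ⟨c, hc⟩
  have h1 : (coeffEmb L jq).order < 0 := by
    have h : (coeffEmb L jq).order ≤ -1 :=
      HahnSeries.order_le_of_coeff_ne_zero (by
        rw [coeffEmb_coeff, coeff_jq_neg_one, map_one]; exact one_ne_zero)
    omega
  have h2 : ((tL N L : FL N L) : LaurentSeries L) = coeffEmb L jq := rfl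
  have h3 : ((algebraMap L (FL N L) c : FL N L) : LaurentSeries L)
      = algebraMap L (LaurentSeries L) c := rfl
  rw [← hc, h3] at h2
  rw [← h2] at h1
  have h4 : (algebraMap L (LaurentSeries L) c).order = 0 :=
    Fermat.Agent.S17.H680.order_algebraMap_laurent c
  omega

variable [IsAlgClosed L]

/-- `t = j` is transcendental over `L`. -/
theorem transcendental_tL : Transcendental L (tL N L) :=
  FF.transcendental_of_not_mem_range (tL_not_mem_range N L)

variable [FF1 L (FL N L)]

/-- `F_L` is finite over `L(t)`. -/
theorem finiteDimensional_tL : FiniteDimensional L⟮tL N L⟯ (FL N L) := by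
  obtain ⟨x, hx, hfin⟩ := FF1.exists_finite (K := L) (F := FL N L)
  exact FF.finiteDimensional_adjoin_of_transcendental hx (transcendental_tL N L)

/-- Every `c ∈ L` is the `t`-value of some place. -/
theorem exists_place_hasValue_tL (c : L) : ∃ P : Place L (FL N L), HasValue P (tL N L) c := by
  have : CharZero L := charZero_of_injective_algebraMap (algebraMap ℚ L).injective
  have := finiteDimensional_tL N L
  obtain ⟨P, hP⟩ := H804.exists_place_ord_sub_pos (transcendental_tL N L) c
  exact ⟨P, Or.inr hP⟩

end Coordinate

section AlgInd

open Cardinal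

/-- Arbitrarily long algebraically independent tuples over a countable subfield of an
uncountable algebraically closed field. -/
theorem exists_algebraicIndependent_fin {L : Type} [Field L] [IsAlgClosed L] [Uncountable L]
    (K₀ : Subfield L) (hK₀ : (K₀ : Set L).Countable) (g : ℕ) :
    ∃ τ : Fin g → L, AlgebraicIndependent K₀ τ := by
  obtain ⟨s, hs⟩ := exists_isTranscendenceBasis K₀ L
  have hcard := IsAlgClosed.cardinal_le_max_transcendence_basis' ((↑) : s → L) hs
  have hK : #K₀ ≤ ℵ₀ := by
    have : Countable K₀ := hK₀.to_subtype
    exact Cardinal.mk_le_aleph0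
  have hL : ℵ₀ < #L := Cardinal.aleph0_lt_mk_iff.mpr inferInstance
  have hinf : Infinite s := by
    by_contra hfin
    rw [not_infinite_iff_finite] at hfin
    have hs' : #s ≤ ℵ₀ := (Cardinal.lt_aleph0_of_finite s).le
    have : #L ≤ ℵ₀ := hcard.trans (max_le (max_le hK hs') le_rfl)
    exact absurd hL (not_lt.mpr this)
  let e : Fin g ↪ s := (Fin.valEmbedding).trans (Infinite.natEmbedding s)
  exact ⟨fun i => ((e i : s) : L), hs.1.comp e e.injective⟩

end AlgInd

section Main

variable (N : ℕ) [NeZero N] (L : Type) [Field L] [Algebra ℚ L] [IsAlgClosed L]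
  [Uncountable L] [FF1 L (FL N L)]

/-- **GEN**, exact frozen shape: generic tuples exist. -/
theorem stmtGEN : StmtGEN N L := by
  intro K₀ hK₀
  obtain ⟨τ, hτ⟩ := exists_algebraicIndependent_fin K₀ hK₀ (gL N L)
  choose P hP using fun i => exists_place_hasValue_tL N L (τ i)
  refine ⟨P, fun i => ⟨τ i, hP i⟩, ?_⟩
  have h : (fun i => tval (P i)) = τ := funext fun i => tval_eq_of_hasValue (P i) (hP i)
  rw [h]
  exact hτ

end Main

end Fermat.Agent.S17.H137
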