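import Mathlib
import Fermat.Agent.S17.GDiv.Defs
import Fermat.Agent.S17.H800.Der

/-!
# S17 / G-DIV: the pieces DEREX and DPRES (helper137)

Thin wrappers, in the exact frozen shapes of `Fermat/Agent/S17/GDiv/Defs.lean`, over the landed
groundwork `Fermat/Agent/S17/H800/Der.lean` (helper800):

* `stmtDEREX L : StmtDEREX L` — enough derivations: if `K₁` is algebraically closed in `L` and
  `x ∉ K₁`, some derivation of `L` kills `K₁` and not `x`;
* `stmtDPRES N L : StmtDPRES N L` — the coefficientwise derivation preserves `F_L`.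

No hypotheses beyond `[Field L] [Algebra ℚ L]`.
-/

set_option autoImplicit false

noncomputable section

open AlgebraicCurve ModularCurve

namespace Fermat.Agent.S17.H137

open Fermat.Agent.S17.GDiv

/-- **DEREX**, exact frozen shape. -/
theorem stmtDEREX (L : Type) [Field L] [Algebra ℚ L] : StmtDEREX L := by
  intro K₁ hK₁ x hx
  have : CharZero L := charZero_of_injective_algebraMap (algebraMap ℚ L).injective
  have : CharZero K₁ := charZero_of_injective_algebraMap (algebraMap ℚ K₁).injective
  have hx' : Transcendental K₁ x := fun h => hx (hK₁ x h)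
  obtain ⟨δ, hδ⟩ := Fermat.Agent.S17.H800.exists_derivation_eq_one (K := K₁) (L := L) hx'
  refine ⟨δ.restrictScalars ℚ, fun a ha => ?_, ?_⟩
  · have h : δ (algebraMap K₁ L ⟨a, ha⟩) = 0 := δ.map_algebraMap _
    exact h
  · show δ x ≠ 0
    rw [hδ]
    exact one_ne_zero

/-- **DPRES**, exact frozen shape. -/
theorem stmtDPRES (N : ℕ) (L : Type) [Field L] [Algebra ℚ L] : StmtDPRES N L := by
  intro d f
  exact ⟨⟨Fermat.Agent.S17.H800.coeffDer d (f : LaurentSeries L),
    Fermat.Agent.S17.H800.coeffDer_mem_laurentBaseChange d _ f.2⟩,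
    fun m => Fermat.Agent.S17.H800.coeffDer_coeff d _ m⟩

end Fermat.Agent.S17.H137
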